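import Mathlib

/-!
# Row LT, tower T2, leaf T2.07.18 (helper841): Fubini for double interval integrals

OFF-MAIN.  Mathlib only.
-/

set_option autoImplicit false

open MeasureTheory

noncomputable section

namespace Fermat.Agent.LT.T2.H841

/-- Lebesgue measure on `(0, a]`. -/
def nu841 (a : ℝ) : Measure ℝ := (volume : Measure ℝ).restrict (Set.Ioc 0 a)

instance isFiniteMeasure_nu841 (a : ℝ) : IsFiniteMeasure (nu841 a) := by
  unfold nu841
  infer_instance

/-- The measure of the box `(0, a] × (0, b]`. -/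
def box841 (a b : ℝ) : Measure (ℝ × ℝ) := (nu841 a).prod (nu841 b)

instance isFiniteMeasure_box841 (a b : ℝ) : IsFiniteMeasure (box841 a b) := by
  unfold box841
  infer_instance

/-- A double interval integral is an integral over the box. -/
theorem dbl841 {G : ℝ → ℝ → ℂ} {a b : ℝ} (ha : 0 ≤ a) (hb : 0 ≤ b)
    (hG : Integrable (Function.uncurry G) (box841 a b)) :
    (∫ α in (0 : ℝ)..a, ∫ β in (0 : ℝ)..b, G α β) = ∫ p, G p.1 p.2 ∂(box841 a b) := by
  have h1 : (∫ α in (0 : ℝ)..a, ∫ β in (0 : ℝ)..b, G α β)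
      = ∫ α, (∫ β, G α β ∂(nu841 b)) ∂(nu841 a) := by
    rw [intervalIntegral.integral_of_le ha]
    refine integral_congr_ae (Filter.Eventually.of_forall fun α => ?_)
    exact intervalIntegral.integral_of_le hb
  rw [h1]
  exact (integral_prod (Function.uncurry G) hG).symm

/-- **Fubini**: an integral over a finite measure space commutes with a double interval
integral. -/
theorem swap841 {X : Type*} [MeasurableSpace X] (μ : Measure X) [SFinite μ]
    (F : X → ℝ → ℝ → ℂ) {a b : ℝ} (ha : 0 ≤ a) (hb : 0 ≤ b)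
    (hF : Integrable (fun p : X × ℝ × ℝ => F p.1 p.2.1 p.2.2) (μ.prod (box841 a b))) :
    (∫ x, (∫ α in (0 : ℝ)..a, ∫ β in (0 : ℝ)..b, F x α β) ∂μ)
      = ∫ α in (0 : ℝ)..a, ∫ β in (0 : ℝ)..b, (∫ x, F x α β ∂μ) := by
  have h1 : (∫ x, (∫ α in (0 : ℝ)..a, ∫ β in (0 : ℝ)..b, F x α β) ∂μ)
      = ∫ x, (∫ p, F x p.1 p.2 ∂(box841 a b)) ∂μ := by
    refine integral_congr_ae ?_
    filter_upwards [hF.prod_right_ae] with x hx
    exact dbl841 ha hb hx
  have h2 : (∫ x, (∫ p, F x p.1 p.2 ∂(box841 a b)) ∂μ)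
      = ∫ p, (∫ x, F x p.1 p.2 ∂μ) ∂(box841 a b) :=
    integral_integral_swap (f := fun x (p : ℝ × ℝ) => F x p.1 p.2) hF
  have h3 : Integrable (Function.uncurry fun α β => ∫ x, F x α β ∂μ) (box841 a b) :=
    hF.integral_prod_right
  rw [h1, h2, dbl841 ha hb h3]

/-- Integrability on `μ × box` of a bounded function which is continuous on `s × ℝ × ℝ`, for
`μ` the restriction of a measure to a measurable set `s` of finite measure. -/
theorem integrable_box841 {X : Type*} [TopologicalSpace X] [MeasurableSpace X]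
    [OpensMeasurableSpace X] [SecondCountableTopology X]
    (μ : Measure X) [SFinite μ] {s : Set X} (hs : MeasurableSet s) (hμs : μ s < ⊤)
    (F : X → ℝ → ℝ → ℂ) (a b : ℝ)
    (hc : ContinuousOn (fun p : X × ℝ × ℝ => F p.1 p.2.1 p.2.2) (s ×ˢ Set.univ))
    (hb : ∃ C : ℝ, ∀ x α β, ‖F x α β‖ ≤ C) :
    Integrable (fun p : X × ℝ × ℝ => F p.1 p.2.1 p.2.2) ((μ.restrict s).prod (box841 a b)) := by
  obtain ⟨C, hC⟩ := hb
  have : IsFiniteMeasure (μ.restrict s) := ⟨by simpa using hμs⟩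
  have hmeas : AEStronglyMeasurable (fun p : X × ℝ × ℝ => F p.1 p.2.1 p.2.2)
      ((μ.restrict s).prod (box841 a b)) := by
    have h1 : (μ.restrict s).prod (box841 a b)
        = (μ.prod (box841 a b)).restrict (s ×ˢ Set.univ) := by
      rw [← Measure.prod_restrict, Measure.restrict_univ]
    rw [h1]
    exact hc.aestronglyMeasurable (hs.prod MeasurableSet.univ)
  exact Integrable.of_bound hmeas C (Filter.Eventually.of_forall fun p => hC _ _ _)

/-- **Fubini** for two double interval integrals of a bounded continuous function. -/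
theorem swap4_841 (F : ℝ → ℝ → ℝ → ℝ → ℂ)
    (hc : Continuous fun p : (ℝ × ℝ) × ℝ × ℝ => F p.1.1 p.1.2 p.2.1 p.2.2)
    (hb : ∃ C : ℝ, ∀ x y z t, ‖F x y z t‖ ≤ C) {a b a' b' : ℝ}
    (ha : 0 ≤ a) (hb0 : 0 ≤ b) (ha' : 0 ≤ a') (hb' : 0 ≤ b') :
    (∫ α in (0 : ℝ)..a, ∫ β in (0 : ℝ)..b, ∫ α' in (0 : ℝ)..a', ∫ β' in (0 : ℝ)..b',
        F α β α' β')
      = ∫ α' in (0 : ℝ)..a', ∫ β' in (0 : ℝ)..b', ∫ α in (0 : ℝ)..a, ∫ β in (0 : ℝ)..b,
        F α β α' β' := by
  obtain ⟨C, hC⟩ := hb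
  have hF : Integrable (fun p : (ℝ × ℝ) × ℝ × ℝ => F p.1.1 p.1.2 p.2.1 p.2.2)
      ((box841 a b).prod (box841 a' b')) :=
    Integrable.of_bound hc.aestronglyMeasurable C
      (Filter.Eventually.of_forall fun p => hC _ _ _ _)
  have hx : ∀ x y : ℝ, Integrable (Function.uncurry (F x y)) (box841 a' b') := fun x y => by
    refine Integrable.of_bound ?_ C (Filter.Eventually.of_forall fun p => hC _ _ _ _)
    have : Continuous (Function.uncurry (F x y)) :=
      hc.comp (Continuous.prodMk (continuous_const (y := ((x, y) : ℝ × ℝ))) continuous_id)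
    exact this.aestronglyMeasurable
  have hy : ∀ z t : ℝ, Integrable (Function.uncurry fun x y => F x y z t) (box841 a b) :=
    fun z t => by
    refine Integrable.of_bound ?_ C (Filter.Eventually.of_forall fun p => hC _ _ _ _)
    have : Continuous (Function.uncurry fun x y => F x y z t) :=
      hc.comp (Continuous.prodMk continuous_id (continuous_const (y := ((z, t) : ℝ × ℝ))))
    exact this.aestronglyMeasurable
  have e1 : (∫ α in (0 : ℝ)..a, ∫ β in (0 : ℝ)..b, ∫ α' in (0 : ℝ)..a', ∫ β' in (0 : ℝ)..b',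
        F α β α' β')
      = ∫ α in (0 : ℝ)..a, ∫ β in (0 : ℝ)..b, ∫ p, F α β p.1 p.2 ∂(box841 a' b') := by
    refine intervalIntegral.integral_congr fun α _ => ?_
    refine intervalIntegral.integral_congr fun β _ => ?_
    exact dbl841 ha' hb' (hx α β)
  have e2 : (∫ α in (0 : ℝ)..a, ∫ β in (0 : ℝ)..b, ∫ p, F α β p.1 p.2 ∂(box841 a' b'))
      = ∫ x, (∫ p, F x.1 x.2 p.1 p.2 ∂(box841 a' b')) ∂(box841 a b) :=
    dbl841 (G := fun α β => ∫ p, F α β p.1 p.2 ∂(box841 a' b')) ha hb0 hF.integral_prod_left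
  have e3 : (∫ x, (∫ p, F x.1 x.2 p.1 p.2 ∂(box841 a' b')) ∂(box841 a b))
      = ∫ p, (∫ x, F x.1 x.2 p.1 p.2 ∂(box841 a b)) ∂(box841 a' b') :=
    integral_integral_swap (f := fun (x : ℝ × ℝ) (p : ℝ × ℝ) => F x.1 x.2 p.1 p.2) hF
  have e4 : (∫ p, (∫ x, F x.1 x.2 p.1 p.2 ∂(box841 a b)) ∂(box841 a' b'))
      = ∫ α' in (0 : ℝ)..a', ∫ β' in (0 : ℝ)..b', ∫ x, F x.1 x.2 α' β' ∂(box841 a b) :=
    (dbl841 (G := fun α' β' => ∫ x, F x.1 x.2 α' β' ∂(box841 a b)) ha' hb'
      hF.integral_prod_right).symm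
  have e5 : (∫ α' in (0 : ℝ)..a', ∫ β' in (0 : ℝ)..b', ∫ x, F x.1 x.2 α' β' ∂(box841 a b))
      = ∫ α' in (0 : ℝ)..a', ∫ β' in (0 : ℝ)..b', ∫ α in (0 : ℝ)..a, ∫ β in (0 : ℝ)..b,
        F α β α' β' := by
    refine intervalIntegral.integral_congr fun α' _ => ?_
    refine intervalIntegral.integral_congr fun β' _ => ?_
    exact (dbl841 ha hb0 (hy α' β')).symm
  rw [e1, e2, e3, e4, e5]

end Fermat.Agent.LT.T2.H841

end
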