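import Mathlib
import Fermat.Agent.LT.H556.A0

/-!
# Row LT, tower T2, leaf T2.07.18 (helper841): elements supported at a complex place

OFF-MAIN.  Vocabulary of `LT/H556/A0.lean`.  For a complex place `w`, `iota841 w hw m` is THE
element of `GL₂(𝔸_K)` supported at `w` with component `m` (junk value `1` when `det m = 0`).
-/

set_option autoImplicit false
set_option linter.unusedSectionVars false

open IsDedekindDomain NumberField
open Fermat.Agent.LT.H556.A0

noncomputable section

namespace Fermat.Agent.LT.T2.H841

variable {K : Type} [Field K] [NumberField K]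

/-- The projection of the adele ring to the completion at the infinite place `w`. -/
def projInf841 (w : InfinitePlace K) : Adl K →+* w.Completion where
  toFun x := x.1 w
  map_one' := rfl
  map_mul' _ _ := rfl
  map_zero' := rfl
  map_add' _ _ := rfl

/-- The projection of the adele ring to the completion at the finite place `v`. -/
def projFin841 (v : HeightOneSpectrum (𝓞 K)) : Adl K →+* v.adicCompletion K where
  toFun x := x.2 v
  map_one' := rfl
  map_mul' _ _ := rfl
  map_zero' := rfl
  map_add' _ _ := rfl

/-- The projection of the finite adele ring to the completion at `v`. -/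
def projFinA841 (v : HeightOneSpectrum (𝓞 K)) :
    FiniteAdeleRing (𝓞 K) K →+* v.adicCompletion K where
  toFun x := x v
  map_one' := rfl
  map_mul' _ _ := rfl
  map_zero' := rfl
  map_add' _ _ := rfl

lemma adl_ext841 {x y : Adl K} (h1 : ∀ w : InfinitePlace K, x.1 w = y.1 w)
    (h2 : ∀ v : HeightOneSpectrum (𝓞 K), x.2 v = y.2 v) : x = y := by
  refine Prod.ext (funext h1) ?_
  exact FiniteAdeleRing.ext (K := K) h2

/-- A matrix over the adeles is determined by its components. -/
lemma adlMatrix_ext841 {M N : Matrix (Fin 2) (Fin 2) (Adl K)}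
    (h1 : ∀ w : InfinitePlace K, M.map (projInf841 w) = N.map (projInf841 w))
    (h2 : ∀ v : HeightOneSpectrum (𝓞 K), M.map (projFin841 v) = N.map (projFin841 v)) :
    M = N := by
  ext i j
  refine adl_ext841 (fun w => ?_) (fun v => ?_)
  · exact congrFun (congrFun (h1 w) i) j
  · exact congrFun (congrFun (h2 v) i) j

open Classical in
/-- The matrix over the adeles with component `x` at `w` and `1` at all other places. -/
def locMat841 (w : InfinitePlace K) (x : Matrix (Fin 2) (Fin 2) w.Completion) :
    Matrix (Fin 2) (Fin 2) (Adl K) :=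
  Matrix.of fun i j =>
    ((fun w' => (Function.update
        (fun w'' : InfinitePlace K => (1 : Matrix (Fin 2) (Fin 2) w''.Completion)) w x) w' i j),
      (1 : Matrix (Fin 2) (Fin 2) (FiniteAdeleRing (𝓞 K) K)) i j)

open Classical in
lemma locMat841_mapInf_self (w : InfinitePlace K) (x : Matrix (Fin 2) (Fin 2) w.Completion) :
    (locMat841 w x).map (projInf841 w) = x := by
  refine Matrix.ext fun i j => ?_
  show (Function.update
        (fun w'' : InfinitePlace K => (1 : Matrix (Fin 2) (Fin 2) w''.Completion)) w x) w i j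
      = x i j
  rw [Function.update_self]

open Classical in
lemma locMat841_mapInf_ne (w : InfinitePlace K) (x : Matrix (Fin 2) (Fin 2) w.Completion)
    {w' : InfinitePlace K} (h : w' ≠ w) :
    (locMat841 w x).map (projInf841 w') = 1 := by
  refine Matrix.ext fun i j => ?_
  show (Function.update
        (fun w'' : InfinitePlace K => (1 : Matrix (Fin 2) (Fin 2) w''.Completion)) w x) w' i j
      = (1 : Matrix (Fin 2) (Fin 2) w'.Completion) i j
  rw [Function.update_of_ne h]

lemma locMat841_mapFin (w : InfinitePlace K) (x : Matrix (Fin 2) (Fin 2) w.Completion)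
    (v : HeightOneSpectrum (𝓞 K)) :
    (locMat841 w x).map (projFin841 v) = 1 := by
  have h : (locMat841 w x).map (projFin841 v)
      = (1 : Matrix (Fin 2) (Fin 2) (FiniteAdeleRing (𝓞 K) K)).map (projFinA841 v) := rfl
  rw [h, Matrix.map_one _ (map_zero _) (map_one _)]

lemma locMat841_mul (w : InfinitePlace K) (x y : Matrix (Fin 2) (Fin 2) w.Completion) :
    locMat841 w (x * y) = locMat841 w x * locMat841 w y := by
  refine adlMatrix_ext841 (fun w' => ?_) (fun v => ?_)
  · rw [Matrix.map_mul]
    by_cases h : w' = w
    · subst h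
      simp only [locMat841_mapInf_self]
    · simp only [locMat841_mapInf_ne w _ h, mul_one]
  · rw [Matrix.map_mul]
    simp only [locMat841_mapFin, mul_one]

lemma locMat841_one (w : InfinitePlace K) : locMat841 w 1 = 1 := by
  refine adlMatrix_ext841 (fun w' => ?_) (fun v => ?_)
  · rw [Matrix.map_one _ (map_zero _) (map_one _)]
    by_cases h : w' = w
    · subst h
      rw [locMat841_mapInf_self]
    · rw [locMat841_mapInf_ne w _ h]
  · rw [Matrix.map_one _ (map_zero _) (map_one _), locMat841_mapFin]

/-- The element of `GL₂(𝔸_K)` with component `x` at `w` and `1` at all other places. -/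
def locG841 (w : InfinitePlace K) (x : GL (Fin 2) w.Completion) : G K where
  val := locMat841 w (x : Matrix (Fin 2) (Fin 2) w.Completion)
  inv := locMat841 w ((x⁻¹ : GL (Fin 2) w.Completion) : Matrix (Fin 2) (Fin 2) w.Completion)
  val_inv := by
    rw [← locMat841_mul, ← Units.val_mul, mul_inv_cancel, Units.val_one, locMat841_one]
  inv_val := by
    rw [← locMat841_mul, ← Units.val_mul, inv_mul_cancel, Units.val_one, locMat841_one]

lemma locG841_val (w : InfinitePlace K) (x : GL (Fin 2) w.Completion) :
    ((locG841 w x : G K) : Matrix (Fin 2) (Fin 2) (Adl K))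
      = locMat841 w (x : Matrix (Fin 2) (Fin 2) w.Completion) := rfl

lemma locG841_mul (w : InfinitePlace K) (x y : GL (Fin 2) w.Completion) :
    locG841 w (x * y) = locG841 w x * locG841 w y := by
  apply Units.ext
  rw [Units.val_mul, locG841_val, locG841_val, locG841_val, Units.val_mul, locMat841_mul]

/-- `g` is trivial at `w'` iff its component matrix is `1`. -/
lemma trivAtInf_iff841 (w' : InfinitePlace K) (g : G K) :
    TrivAtInf w' g ↔ (g : Matrix (Fin 2) (Fin 2) (Adl K)).map (projInf841 w') = 1 := by
  constructor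
  · intro h
    exact Matrix.ext fun i j => h i j
  · intro h i j
    exact congrFun (congrFun h i) j

lemma trivAtFin_iff841 (v : HeightOneSpectrum (𝓞 K)) (g : G K) :
    TrivAtFin v g ↔ (g : Matrix (Fin 2) (Fin 2) (Adl K)).map (projFin841 v) = 1 :=
  Iff.rfl

lemma isLocalAtInf_locG841 (w : InfinitePlace K) (x : GL (Fin 2) w.Completion) :
    IsLocalAtInf w (locG841 w x) := by
  refine ⟨fun w' h => ?_, fun v => ?_⟩
  · rw [trivAtInf_iff841, locG841_val]
    exact locMat841_mapInf_ne w _ h
  · rw [trivAtFin_iff841, locG841_val]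
    exact locMat841_mapFin w _ v

/-- An element supported at `w` is determined by its component at `w`. -/
lemma eq_locG841_of_local (w : InfinitePlace K) (x : GL (Fin 2) w.Completion) (h : G K)
    (hl : IsLocalAtInf w h)
    (hc : (h : Matrix (Fin 2) (Fin 2) (Adl K)).map (projInf841 w)
      = (x : Matrix (Fin 2) (Fin 2) w.Completion)) : h = locG841 w x := by
  apply Units.ext
  rw [locG841_val]
  refine adlMatrix_ext841 (fun w' => ?_) (fun v => ?_)
  · by_cases hw : w' = w
    · subst hw
      rw [locMat841_mapInf_self]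
      exact hc
    · rw [locMat841_mapInf_ne w _ hw]
      exact (trivAtInf_iff841 w' h).mp (hl.1 w' hw)
  · rw [locMat841_mapFin]
    exact (trivAtFin_iff841 v h).mp (hl.2 v)

lemma isLocalAtInf_one841 (w : InfinitePlace K) : IsLocalAtInf w (1 : G K) := by
  refine ⟨fun w' _ => ?_, fun v => ?_⟩
  · rw [trivAtInf_iff841, Units.val_one, Matrix.map_one _ (map_zero _) (map_one _)]
  · rw [trivAtFin_iff841, Units.val_one, Matrix.map_one _ (map_zero _) (map_one _)]

/-- Elements supported at two different infinite places commute. -/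
lemma commute_of_local841 {w w' : InfinitePlace K} (hww : w ≠ w') {h h' : G K}
    (hl : IsLocalAtInf w h) (hl' : IsLocalAtInf w' h') : h * h' = h' * h := by
  apply Units.ext
  rw [Units.val_mul, Units.val_mul]
  refine adlMatrix_ext841 (fun u => ?_) (fun v => ?_)
  · rw [Matrix.map_mul, Matrix.map_mul]
    by_cases hu : u = w
    · subst hu
      rw [(trivAtInf_iff841 u h').mp (hl'.1 u hww), mul_one, one_mul]
    · rw [(trivAtInf_iff841 u h).mp (hl.1 u hu), mul_one, one_mul]
  · rw [Matrix.map_mul, Matrix.map_mul, (trivAtFin_iff841 v h).mp (hl.2 v),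
      (trivAtFin_iff841 v h').mp (hl'.2 v)]

section Complex

variable (w : InfinitePlace K) (hw : w.IsComplex)

/-- The matrix `m` over `ℂ`, transported to the completion at the complex place `w`. -/
def toCompl841 (m : Matrix (Fin 2) (Fin 2) ℂ) : Matrix (Fin 2) (Fin 2) w.Completion :=
  m.map (InfinitePlace.Completion.ringEquivComplexOfIsComplex hw).symm

lemma ext_toCompl841 (m : Matrix (Fin 2) (Fin 2) ℂ) (i j : Fin 2) :
    InfinitePlace.Completion.extensionEmbedding w (toCompl841 w hw m i j) = m i j := by
  show InfinitePlace.Completion.extensionEmbedding w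
    ((InfinitePlace.Completion.ringEquivComplexOfIsComplex hw).symm (m i j)) = m i j
  rw [← InfinitePlace.Completion.ringEquivComplexOfIsComplex_apply hw]
  exact (InfinitePlace.Completion.ringEquivComplexOfIsComplex hw).apply_symm_apply (m i j)

lemma toCompl841_mul (m m' : Matrix (Fin 2) (Fin 2) ℂ) :
    toCompl841 w hw (m * m') = toCompl841 w hw m * toCompl841 w hw m' := by
  unfold toCompl841
  exact Matrix.map_mul (f := (InfinitePlace.Completion.ringEquivComplexOfIsComplex hw).symm)

lemma toCompl841_one : toCompl841 w hw 1 = 1 := by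
  unfold toCompl841
  exact Matrix.map_one _ (map_zero _) (map_one _)

/-- The element of `GL₂` of the completion at `w` attached to an invertible complex matrix. -/
def toGL841 (m : Matrix (Fin 2) (Fin 2) ℂ) (hm : m.det ≠ 0) : GL (Fin 2) w.Completion where
  val := toCompl841 w hw m
  inv := toCompl841 w hw m⁻¹
  val_inv := by
    rw [← toCompl841_mul, Matrix.mul_nonsing_inv _ (isUnit_iff_ne_zero.mpr hm), toCompl841_one]
  inv_val := by
    rw [← toCompl841_mul, Matrix.nonsing_inv_mul _ (isUnit_iff_ne_zero.mpr hm), toCompl841_one]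

open Classical in
/-- THE element supported at the complex place `w` with component `m` (`1` if `det m = 0`). -/
def iota841 (m : Matrix (Fin 2) (Fin 2) ℂ) : G K :=
  if hm : m.det ≠ 0 then locG841 w (toGL841 w hw m hm) else 1

lemma iota841_of_det {m : Matrix (Fin 2) (Fin 2) ℂ} (hm : m.det ≠ 0) :
    iota841 w hw m = locG841 w (toGL841 w hw m hm) := by
  simp [iota841, hm]

lemma isLocalAtInf_iota841 (m : Matrix (Fin 2) (Fin 2) ℂ) : IsLocalAtInf w (iota841 w hw m) := by
  unfold iota841
  split_ifs with hm
  · exact isLocalAtInf_locG841 w _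
  · exact isLocalAtInf_one841 w

lemma infComp_iota841 {m : Matrix (Fin 2) (Fin 2) ℂ} (hm : m.det ≠ 0) :
    infComp w (iota841 w hw m) = m := by
  rw [iota841_of_det w hw hm]
  refine Matrix.ext fun i j => ?_
  have h1 : ((locG841 w (toGL841 w hw m hm) : G K) : Matrix (Fin 2) (Fin 2) (Adl K)).map
      (projInf841 w) = toCompl841 w hw m := by
    rw [locG841_val]
    exact locMat841_mapInf_self w _
  have h2 := congrFun (congrFun h1 i) j
  show InfinitePlace.Completion.extensionEmbedding w
    ((((locG841 w (toGL841 w hw m hm) : G K) : Matrix (Fin 2) (Fin 2) (Adl K)) i j).1 w) = m i j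
  have h3 : (((locG841 w (toGL841 w hw m hm) : G K) : Matrix (Fin 2) (Fin 2) (Adl K)) i j).1 w
      = toCompl841 w hw m i j := h2
  rw [h3]
  exact ext_toCompl841 w hw m i j

lemma iota841_mul {m m' : Matrix (Fin 2) (Fin 2) ℂ} (hm : m.det ≠ 0) (hm' : m'.det ≠ 0) :
    iota841 w hw (m * m') = iota841 w hw m * iota841 w hw m' := by
  have hmm : (m * m').det ≠ 0 := by
    rw [Matrix.det_mul]; exact mul_ne_zero hm hm'
  rw [iota841_of_det w hw hm, iota841_of_det w hw hm', iota841_of_det w hw hmm, ← locG841_mul]
  congr 1
  apply Units.ext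
  exact toCompl841_mul w hw m m'

/-- Uniqueness: an element supported at `w` with component `m` is `iota841 m`. -/
lemma eq_iota841 {m : Matrix (Fin 2) (Fin 2) ℂ} (hm : m.det ≠ 0) (h : G K)
    (hl : IsLocalAtInf w h) (hc : infComp w h = m) : h = iota841 w hw m := by
  rw [iota841_of_det w hw hm]
  refine eq_locG841_of_local w _ h hl ?_
  refine Matrix.ext fun i j => ?_
  have hinj := (InfinitePlace.Completion.bijective_extensionEmbedding_of_isComplex hw).1
  apply hinj
  have h1 : InfinitePlace.Completion.extensionEmbedding w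
      (((h : Matrix (Fin 2) (Fin 2) (Adl K)) i j).1 w) = m i j :=
    congrFun (congrFun hc i) j
  have h2 : InfinitePlace.Completion.extensionEmbedding w
      (((h : Matrix (Fin 2) (Fin 2) (Adl K)).map (projInf841 w)) i j) = m i j := h1
  rw [h2]
  exact (ext_toCompl841 w hw m i j).symm

lemma det_ne_zero_of_unitary841 {k : Matrix (Fin 2) (Fin 2) ℂ}
    (hk : k * k.conjTranspose = 1) : k.det ≠ 0 := by
  intro h0
  have := congrArg Matrix.det hk
  rw [Matrix.det_mul, h0, zero_mul, Matrix.det_one] at this
  exact zero_ne_one this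

lemma isArchCompact_iota841 {k : Matrix (Fin 2) (Fin 2) ℂ} (hk : k * k.conjTranspose = 1) :
    IsArchCompact w (iota841 w hw k) := by
  refine ⟨isLocalAtInf_iota841 w hw k, ?_, fun hr => ?_⟩
  · rw [infComp_iota841 w hw (det_ne_zero_of_unitary841 hk)]
    exact hk
  · exact absurd hr (InfinitePlace.not_isReal_iff_isComplex.mpr hw)

lemma isArchPosScalar_iota841 {r : ℝ} (hr : 0 < r) :
    IsArchPosScalar w (iota841 w hw (Matrix.diagonal (fun _ => (r : ℂ)))) := by
  have hdet : (Matrix.diagonal (fun _ : Fin 2 => (r : ℂ))).det ≠ 0 := by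
    rw [Matrix.det_diagonal]
    simp [hr.ne']
  exact ⟨isLocalAtInf_iota841 w hw _, r, hr, infComp_iota841 w hw hdet⟩

end Complex

end Fermat.Agent.LT.T2.H841

end
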