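import Mathlib

/-!
# Row LT, tower T2, leaf T2.07.18 (helper841): the quaternionic average

OFF-MAIN.  Mathlib only.  `qmat q = [[z, -w̄], [w, z̄]]` for `q = (z, w) ∈ ℂ × ℂ` runs over
`ℝ_{≥0} · SU(2)`; right multiplication by an element `[[a, -c̄], [c, ā]]` of `SU(2)` is an
`ℝ`-linear bijection `qT a c` of `ℂ × ℂ` which preserves `qN q = |z|² + |w|² = det (qmat q)`, hence
the annulus `qA = {1 ≤ qN ≤ 4}` and (therefore) the Lebesgue measure.
-/

set_option autoImplicit false

open MeasureTheory

noncomputable section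

namespace Fermat.Agent.LT.T2.H841

/-- The matrix `[[z, -w̄], [w, z̄]]`. -/
def qmat (q : ℂ × ℂ) : Matrix (Fin 2) (Fin 2) ℂ :=
  !![q.1, -(starRingEnd ℂ q.2); q.2, starRingEnd ℂ q.1]

/-- The matrix `[[a, -c̄], [c, ā]]` (an element of `SU(2)` when `|a|² + |c|² = 1`). -/
def suMat (a c : ℂ) : Matrix (Fin 2) (Fin 2) ℂ :=
  !![a, -(starRingEnd ℂ c); c, starRingEnd ℂ a]

/-- `|z|² + |w|²`. -/
def qN (q : ℂ × ℂ) : ℝ := Complex.normSq q.1 + Complex.normSq q.2

theorem det_qmat (q : ℂ × ℂ) : (qmat q).det = ((qN q : ℝ) : ℂ) := by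
  simp only [qmat, qN, Matrix.det_fin_two_of, Complex.ofReal_add, Complex.normSq_eq_conj_mul_self]
  ring

theorem continuous_qN : Continuous qN := by
  unfold qN
  exact (Complex.continuous_normSq.comp continuous_fst).add
    (Complex.continuous_normSq.comp continuous_snd)

theorem continuous_qmat : Continuous qmat := by
  unfold qmat
  refine continuous_matrix fun i j => ?_
  fin_cases i <;> fin_cases j
  · exact continuous_fst
  · exact (Complex.continuous_conj.comp continuous_snd).neg
  · exact continuous_snd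
  · exact Complex.continuous_conj.comp continuous_fst

/-- The annulus `1 ≤ |z|² + |w|² ≤ 4`. -/
def qA : Set (ℂ × ℂ) := {q | 1 ≤ qN q ∧ qN q ≤ 4}

theorem isClosed_qA : IsClosed qA :=
  (isClosed_le continuous_const continuous_qN).inter (isClosed_le continuous_qN continuous_const)

theorem measurableSet_qA : MeasurableSet qA := isClosed_qA.measurableSet

theorem qN_pos_of_mem {q : ℂ × ℂ} (hq : q ∈ qA) : 0 < qN q := lt_of_lt_of_le one_pos hq.1

theorem det_qmat_ne_zero {q : ℂ × ℂ} (hq : q ∈ qA) : (qmat q).det ≠ 0 := by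
  rw [det_qmat]
  exact_mod_cast (qN_pos_of_mem hq).ne'

theorem qA_subset_closedBall : qA ⊆ Metric.closedBall (0 : ℂ × ℂ) 2 := by
  intro q hq
  have h1 : Complex.normSq q.1 ≤ 4 := by
    have := Complex.normSq_nonneg q.2
    have := hq.2
    unfold qN at this
    linarith
  have h2 : Complex.normSq q.2 ≤ 4 := by
    have := Complex.normSq_nonneg q.1
    have := hq.2
    unfold qN at this
    linarith
  have e1 : ‖q.1‖ ≤ 2 := by
    have h := Complex.normSq_eq_norm_sq q.1
    have h0 := norm_nonneg q.1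
    nlinarith
  have e2 : ‖q.2‖ ≤ 2 := by
    have h := Complex.normSq_eq_norm_sq q.2
    have h0 := norm_nonneg q.2
    nlinarith
  rw [Metric.mem_closedBall, dist_zero_right]
  exact max_le e1 e2

theorem volume_qA_lt_top : (volume : Measure (ℂ × ℂ)) qA < ⊤ :=
  lt_of_le_of_lt (measure_mono qA_subset_closedBall) measure_closedBall_lt_top

theorem volume_qA_pos : 0 < (volume : Measure (ℂ × ℂ)) qA := by
  have hopen : IsOpen {q : ℂ × ℂ | 1 < qN q ∧ qN q < 4} :=
    (isOpen_lt continuous_const continuous_qN).inter (isOpen_lt continuous_qN continuous_const)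
  have hne : ({q : ℂ × ℂ | 1 < qN q ∧ qN q < 4}).Nonempty := by
    refine ⟨((3 / 2 : ℝ), 0), ?_⟩
    simp only [Set.mem_ofPred_eq, qN, Complex.normSq_ofReal, map_zero, add_zero]
    constructor <;> norm_num
  refine lt_of_lt_of_le (hopen.measure_pos volume hne) (measure_mono ?_)
  intro q hq
  exact ⟨hq.1.le, hq.2.le⟩

/-- Right multiplication by `suMat a c`, in the coordinates `q`. -/
def qT (a c : ℂ) : (ℂ × ℂ) →ₗ[ℝ] (ℂ × ℂ) where
  toFun q := (q.1 * a - starRingEnd ℂ q.2 * c, q.2 * a + starRingEnd ℂ q.1 * c)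
  map_add' p q := by
    ext <;> simp only [Prod.fst_add, Prod.snd_add, map_add] <;> ring_nf
  map_smul' r q := by
    ext <;>
    simp only [Prod.smul_fst, Prod.smul_snd, Complex.real_smul, map_mul, Complex.conj_ofReal,
      RingHom.id_apply] <;> ring_nf

theorem qT_apply (a c : ℂ) (q : ℂ × ℂ) :
    qT a c q = (q.1 * a - starRingEnd ℂ q.2 * c, q.2 * a + starRingEnd ℂ q.1 * c) := rfl

theorem qmat_qT (a c : ℂ) (q : ℂ × ℂ) : qmat (qT a c q) = qmat q * suMat a c := by
  simp only [qmat, suMat, qT_apply]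
  ext i j
  fin_cases i <;> fin_cases j <;>
  simp [Matrix.mul_apply, Fin.sum_univ_two] <;> ring

theorem qN_qT (a c : ℂ) (h : Complex.normSq a + Complex.normSq c = 1) (q : ℂ × ℂ) :
    qN (qT a c q) = qN q := by
  have h1 : ((qN (qT a c q) : ℝ) : ℂ) = ((qN q : ℝ) : ℂ) := by
    rw [← det_qmat, ← det_qmat, qmat_qT, Matrix.det_mul]
    have : (suMat a c).det = 1 := by
      have h' : ((Complex.normSq a + Complex.normSq c : ℝ) : ℂ) = 1 := by rw [h]; simp
      simp only [suMat, Matrix.det_fin_two_of]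
      rw [← h']
      simp only [Complex.ofReal_add, Complex.normSq_eq_conj_mul_self]
      ring
    rw [this, mul_one]
  exact_mod_cast h1

theorem qT_qT_inv (a c : ℂ) (h : Complex.normSq a + Complex.normSq c = 1) (q : ℂ × ℂ) :
    qT (starRingEnd ℂ a) (-c) (qT a c q) = q := by
  have h' : a * starRingEnd ℂ a + c * starRingEnd ℂ c = 1 := by
    have : ((Complex.normSq a + Complex.normSq c : ℝ) : ℂ) = 1 := by rw [h]; simp
    rw [← this]
    simp only [Complex.ofReal_add, Complex.normSq_eq_conj_mul_self]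
    ring
  simp only [qT_apply]
  ext
  · simp only [map_add, map_mul, Complex.conj_conj]
    linear_combination q.1 * h'
  · simp only [map_mul, map_sub, Complex.conj_conj]
    linear_combination q.2 * h'

theorem normSq_conj_neg (a c : ℂ) (h : Complex.normSq a + Complex.normSq c = 1) :
    Complex.normSq (starRingEnd ℂ a) + Complex.normSq (-c) = 1 := by
  simpa [Complex.normSq_conj, Complex.normSq_neg] using h

theorem qT_inv_qT (a c : ℂ) (h : Complex.normSq a + Complex.normSq c = 1) (q : ℂ × ℂ) :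
    qT a c (qT (starRingEnd ℂ a) (-c) q) = q := by
  have := qT_qT_inv (starRingEnd ℂ a) (-c) (normSq_conj_neg a c h) q
  simpa using this

/-- `qT a c` as a linear equivalence. -/
def qTe (a c : ℂ) (h : Complex.normSq a + Complex.normSq c = 1) : (ℂ × ℂ) ≃ₗ[ℝ] (ℂ × ℂ) :=
  { qT a c with
    invFun := qT (starRingEnd ℂ a) (-c)
    left_inv := qT_qT_inv a c h
    right_inv := qT_inv_qT a c h }

theorem qT_preimage_qA (a c : ℂ) (h : Complex.normSq a + Complex.normSq c = 1) :
    (qT a c) ⁻¹' qA = qA := by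
  ext q
  simp only [Set.mem_preimage, qA, Set.mem_ofPred_eq, qN_qT a c h]

theorem qT_image_qA (a c : ℂ) (h : Complex.normSq a + Complex.normSq c = 1) :
    (qT a c) '' qA = qA := by
  ext q
  constructor
  · rintro ⟨p, hp, rfl⟩
    simpa only [qA, Set.mem_ofPred_eq, qN_qT a c h] using hp
  · intro hq
    refine ⟨qT (starRingEnd ℂ a) (-c) q, ?_, qT_inv_qT a c h q⟩
    simpa only [qA, Set.mem_ofPred_eq, qN_qT _ _ (normSq_conj_neg a c h)] using hq

theorem abs_det_qT (a c : ℂ) (h : Complex.normSq a + Complex.normSq c = 1) :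
    ENNReal.ofReal |LinearMap.det (qT a c)| = 1 := by
  haveI : (volume : Measure (ℂ × ℂ)).IsAddHaarMeasure :=
    inferInstanceAs ((volume : Measure ℂ).prod (volume : Measure ℂ)).IsAddHaarMeasure
  have h1 := Measure.addHaar_image_linearMap (volume : Measure (ℂ × ℂ)) (qT a c) qA
  rw [qT_image_qA a c h] at h1
  have hpos := volume_qA_pos
  have hfin := volume_qA_lt_top
  have h2 : ENNReal.ofReal |LinearMap.det (qT a c)| * volume qA = 1 * volume qA := by
    rw [one_mul]; exact h1.symm
  exact (ENNReal.mul_left_inj hpos.ne' hfin.ne).mp h2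

theorem measurePreserving_qT (a c : ℂ) (h : Complex.normSq a + Complex.normSq c = 1) :
    MeasurePreserving (qT a c) (volume : Measure (ℂ × ℂ)) volume := by
  haveI : (volume : Measure (ℂ × ℂ)).IsAddHaarMeasure :=
    inferInstanceAs ((volume : Measure ℂ).prod (volume : Measure ℂ)).IsAddHaarMeasure
  have hdet := abs_det_qT a c h
  have hne : LinearMap.det (qT a c) ≠ 0 := by
    intro h0
    rw [h0] at hdet
    simp at hdet
  refine ⟨(LinearMap.continuous_of_finiteDimensional (qT a c)).measurable, ?_⟩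
  rw [Measure.map_linearMap_addHaar_eq_smul_addHaar volume hne, abs_inv]
  have h3 : |LinearMap.det (qT a c)| = 1 := by
    have := congrArg ENNReal.toReal hdet
    rwa [ENNReal.toReal_ofReal (abs_nonneg _), ENNReal.toReal_one] at this
  rw [h3, inv_one, ENNReal.ofReal_one, one_smul]

/-- **Invariance of the average**: `∫_{qA} F(q · k) dq = ∫_{qA} F(q) dq` for `k ∈ SU(2)`. -/
theorem setIntegral_qA_comp_qT (a c : ℂ) (h : Complex.normSq a + Complex.normSq c = 1)
    (F : ℂ × ℂ → ℂ) : ∫ q in qA, F (qT a c q) = ∫ q in qA, F q := by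
  have hemb : MeasurableEmbedding (qT a c) :=
    (qTe a c h).toContinuousLinearEquiv.toHomeomorph.measurableEmbedding
  have := (measurePreserving_qT a c h).setIntegral_preimage_emb hemb F qA
  rwa [qT_preimage_qA a c h] at this

end Fermat.Agent.LT.T2.H841

end
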