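import Mathlib
import Fermat.Agent.LT.H556.A0
import Fermat.Agent.LT.T2.H841.QuatAvg

/-!
# Row LT, tower T2, leaf T2.07.18 (helper841): facts on the matrices of A0

OFF-MAIN.  `rotZ`, `rotY` are of the form `suMat`; determinants; the shape of `SU(2)`;
the polar form of `qmat q`; the transposition of `torus d * rotY β * torus d'`.
-/

set_option autoImplicit false

open Fermat.Agent.LT.H556.A0

noncomputable section

namespace Fermat.Agent.LT.T2.H841

theorem continuous_rotZ841 : Continuous rotZ := by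
  unfold rotZ
  refine continuous_matrix fun i j => ?_
  fin_cases i <;> fin_cases j <;> simp <;> fun_prop

theorem continuous_rotY841 : Continuous rotY := by
  unfold rotY
  refine continuous_matrix fun i j => ?_
  fin_cases i <;> fin_cases j <;> simp <;> fun_prop

theorem rotZ_eq_suMat841 (α : ℝ) :
    rotZ α = suMat (Complex.exp (Complex.I * ((α / 2 : ℝ) : ℂ))) 0 := by
  unfold rotZ suMat
  have h : (starRingEnd ℂ) (Complex.exp (Complex.I * ((α / 2 : ℝ) : ℂ)))
      = Complex.exp (-(Complex.I * ((α / 2 : ℝ) : ℂ))) := by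
    rw [← Complex.exp_conj]
    congr 1
    rw [map_mul, Complex.conj_I, Complex.conj_ofReal]
    ring
  rw [h]
  simp only [map_zero, neg_zero]

theorem normSq_rotZ841 (α : ℝ) :
    Complex.normSq (Complex.exp (Complex.I * ((α / 2 : ℝ) : ℂ))) + Complex.normSq 0 = 1 := by
  have h : ‖Complex.exp (Complex.I * ((α / 2 : ℝ) : ℂ))‖ = 1 := by
    rw [mul_comm]
    exact Complex.norm_exp_ofReal_mul_I (α / 2)
  rw [Complex.normSq_eq_norm_sq, h]
  simp

theorem rotY_eq_suMat841 (β : ℝ) :
    rotY β = suMat ((Real.cos (β / 2) : ℝ) : ℂ) ((Real.sin (β / 2) : ℝ) : ℂ) := by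
  unfold rotY suMat
  simp only [Complex.conj_ofReal]

theorem normSq_rotY841 (β : ℝ) :
    Complex.normSq ((Real.cos (β / 2) : ℝ) : ℂ) + Complex.normSq ((Real.sin (β / 2) : ℝ) : ℂ)
      = 1 := by
  rw [Complex.normSq_ofReal, Complex.normSq_ofReal]
  have := Real.cos_sq_add_sin_sq (β / 2)
  nlinarith

theorem det_suMat841 (a c : ℂ) (h : Complex.normSq a + Complex.normSq c = 1) :
    (suMat a c).det = 1 := by
  have h' : ((Complex.normSq a + Complex.normSq c : ℝ) : ℂ) = 1 := by rw [h]; simp
  simp only [suMat, Matrix.det_fin_two_of]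
  rw [← h']
  simp only [Complex.ofReal_add, Complex.normSq_eq_conj_mul_self]
  ring

theorem det_rotZ841 (α : ℝ) : (rotZ α).det = 1 := by
  rw [rotZ_eq_suMat841]
  exact det_suMat841 _ _ (normSq_rotZ841 α)

theorem det_rotY841 (β : ℝ) : (rotY β).det = 1 := by
  rw [rotY_eq_suMat841]
  exact det_suMat841 _ _ (normSq_rotY841 β)

theorem det_torus841 (d : ℝ) : (torus d).det = 1 := by
  unfold torus
  rw [Matrix.det_fin_two_of]
  simp only [mul_zero, sub_zero]
  rw [← Complex.ofReal_mul, ← Real.exp_add]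
  simp

/-- The matrix of the sphere of radius `d`. -/
def sphM841 (d α β : ℝ) : Matrix (Fin 2) (Fin 2) ℂ := rotZ α * rotY β * torus d

theorem det_sphM841 (d α β : ℝ) : (sphM841 d α β).det = 1 := by
  unfold sphM841
  rw [Matrix.det_mul, Matrix.det_mul, det_rotZ841, det_rotY841, det_torus841]
  simp

theorem det_sphM841_ne (d α β : ℝ) : (sphM841 d α β).det ≠ 0 := by
  rw [det_sphM841]; exact one_ne_zero

theorem continuous_sphM841 (d : ℝ) : Continuous fun p : ℝ × ℝ => sphM841 d p.1 p.2 := by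
  unfold sphM841
  exact ((continuous_rotZ841.comp continuous_fst).matrix_mul
    (continuous_rotY841.comp continuous_snd)).matrix_mul continuous_const

theorem rotZ_mul_torus841 (α d : ℝ) : rotZ α * torus d = torus d * rotZ α := by
  unfold rotZ torus
  ext i j
  fin_cases i <;> fin_cases j <;> simp [Matrix.mul_apply, Fin.sum_univ_two, mul_comm]

/-- The shape of `SU(2)`. -/
theorem su_shape841 {k : Matrix (Fin 2) (Fin 2) ℂ} (hk : k * k.conjTranspose = 1)
    (hd : k.det = 1) :
    k = suMat (k 0 0) (k 1 0) ∧ Complex.normSq (k 0 0) + Complex.normSq (k 1 0) = 1 := by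
  have hinv : k⁻¹ = k.conjTranspose := Matrix.inv_eq_right_inv hk
  have hadj : k⁻¹ = k.adjugate := by
    rw [Matrix.inv_def, hd]
    simp
  have h1 : k.conjTranspose = k.adjugate := by rw [← hinv, hadj]
  rw [Matrix.adjugate_fin_two] at h1
  have e00 := congrFun (congrFun h1 0) 0
  have e10 := congrFun (congrFun h1 0) 1
  simp only [Matrix.conjTranspose_apply, Matrix.of_apply, Matrix.cons_val', Matrix.cons_val_zero,
    Matrix.cons_val_one, Matrix.cons_val_fin_one] at e00 e10
  have h11 : k 1 1 = (starRingEnd ℂ) (k 0 0) := by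
    rw [← e00]; rfl
  have h01 : k 0 1 = -(starRingEnd ℂ) (k 1 0) := by
    have : (starRingEnd ℂ) (k 1 0) = -k 0 1 := by
      rw [← e10]; rfl
    rw [this, neg_neg]
  have hshape : k = suMat (k 0 0) (k 1 0) := by
    unfold suMat
    ext i j
    fin_cases i <;> fin_cases j
    · rfl
    · exact h01
    · rfl
    · exact h11
  refine ⟨hshape, ?_⟩
  have hdet : k.det = ((Complex.normSq (k 0 0) + Complex.normSq (k 1 0) : ℝ) : ℂ) := by
    rw [Matrix.det_fin_two, h11, h01]
    simp only [Complex.ofReal_add, Complex.normSq_eq_conj_mul_self]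
    ring
  rw [hd] at hdet
  exact_mod_cast hdet.symm

theorem conjTranspose_transpose_unitary841 {k : Matrix (Fin 2) (Fin 2) ℂ}
    (hk : k * k.conjTranspose = 1) : k.transpose * k.transpose.conjTranspose = 1 := by
  have h2 : k.conjTranspose * k = 1 := mul_eq_one_comm.mp hk
  have h3 := congrArg Matrix.transpose h2
  rw [Matrix.transpose_mul, Matrix.transpose_one] at h3
  rw [← h3]
  congr 1

/-- Polar form: `qmat q = k · diag(r, r)` with `k` unitary and `r > 0`, for `q ≠ 0`. -/
theorem qmat_polar841 {q : ℂ × ℂ} (hq : 0 < qN q) :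
    ∃ (k : Matrix (Fin 2) (Fin 2) ℂ) (r : ℝ), 0 < r ∧ k * k.conjTranspose = 1 ∧
      qmat q = k * Matrix.diagonal (fun _ => (r : ℂ)) := by
  set r : ℝ := Real.sqrt (qN q) with hr
  have hr0 : 0 < r := Real.sqrt_pos.mpr hq
  have hr2 : r * r = qN q := Real.mul_self_sqrt hq.le
  have hrc : (r : ℂ) ≠ 0 := by exact_mod_cast hr0.ne'
  have hN : ((qN q : ℝ) : ℂ) = q.1 * (starRingEnd ℂ) q.1 + q.2 * (starRingEnd ℂ) q.2 := by
    simp only [qN, Complex.ofReal_add, Complex.normSq_eq_conj_mul_self]
    ring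
  have hr2c : (r : ℂ) * (r : ℂ) = q.1 * (starRingEnd ℂ) q.1 + q.2 * (starRingEnd ℂ) q.2 := by
    rw [← hN, ← hr2]; push_cast; ring
  refine ⟨((r : ℂ)⁻¹) • qmat q, r, hr0, ?_, ?_⟩
  · have hconj : (starRingEnd ℂ) ((r : ℂ)⁻¹) = (r : ℂ)⁻¹ := by
      rw [map_inv₀, Complex.conj_ofReal]
    unfold qmat
    ext i j
    fin_cases i <;> fin_cases j <;>
    simp [Matrix.mul_apply, Fin.sum_univ_two, Matrix.conjTranspose_apply, Matrix.one_apply] <;>
    field_simp <;> first | linear_combination hr2c | linear_combination -hr2c | ring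
  · ext i j
    fin_cases i <;> fin_cases j <;>
    simp [qmat, Matrix.mul_apply, Fin.sum_univ_two, Matrix.diagonal_apply] <;> field_simp

/-- `diag(i, -i)`. -/
def dmat841 : Matrix (Fin 2) (Fin 2) ℂ := suMat Complex.I 0

/-- `diag(-i, i)`. -/
def dmatInv841 : Matrix (Fin 2) (Fin 2) ℂ := !![-Complex.I, 0; 0, Complex.I]

theorem normSq_dmat841 : Complex.normSq Complex.I + Complex.normSq 0 = 1 := by simp

theorem dmatInv841_unitary : dmatInv841 * dmatInv841.conjTranspose = 1 := by
  unfold dmatInv841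
  ext i j
  fin_cases i <;> fin_cases j <;>
  simp [Matrix.mul_apply, Fin.sum_univ_two, Matrix.conjTranspose_apply, Matrix.one_apply]

/-- The middle matrix `torus d * rotY β * torus d'`. -/
def midM841 (d β d' : ℝ) : Matrix (Fin 2) (Fin 2) ℂ := torus d * rotY β * torus d'

theorem det_midM841 (d β d' : ℝ) : (midM841 d β d').det = 1 := by
  unfold midM841
  rw [Matrix.det_mul, Matrix.det_mul, det_torus841, det_rotY841, det_torus841]
  simp

theorem midM841_eq (d β d' : ℝ) :
    midM841 d β d' = !![((Real.exp (d / 2) * Real.cos (β / 2) * Real.exp (d' / 2) : ℝ) : ℂ),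
        ((-(Real.exp (d / 2) * Real.sin (β / 2) * Real.exp (-(d' / 2))) : ℝ) : ℂ);
      ((Real.exp (-(d / 2)) * Real.sin (β / 2) * Real.exp (d' / 2) : ℝ) : ℂ),
        ((Real.exp (-(d / 2)) * Real.cos (β / 2) * Real.exp (-(d' / 2)) : ℝ) : ℂ)] := by
  unfold midM841 torus rotY
  ext i j
  fin_cases i <;> fin_cases j <;>
  simp [Matrix.mul_apply, Fin.sum_univ_two]

theorem midM841_real (d β d' : ℝ) (i j : Fin 2) : (midM841 d β d' i j).im = 0 := by
  rw [midM841_eq]
  fin_cases i <;> fin_cases j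
  · exact Complex.ofReal_im _
  · exact Complex.ofReal_im _
  · exact Complex.ofReal_im _
  · exact Complex.ofReal_im _

/-- Transposition exchanges `d` and `d'`, up to conjugation by `diag(i, -i)`. -/
theorem midM841_transpose (d β d' : ℝ) :
    (midM841 d β d').transpose = dmat841 * midM841 d' β d * dmatInv841 := by
  unfold midM841 dmat841 dmatInv841 suMat torus rotY
  ext i j
  fin_cases i <;> fin_cases j <;>
  simp [Matrix.mul_apply, Fin.sum_univ_two, Matrix.transpose_apply] <;> ring_nf <;>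
  simp [Complex.I_sq]

end Fermat.Agent.LT.T2.H841

end
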