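import Mathlib
import Fermat.Agent.LT.T2.H429.OpsSpec
import Fermat.Agent.LT.T2.H841.QuatAvg
import Fermat.Agent.LT.T2.H841.Local
import Fermat.Agent.LT.T2.H841.Fubini
import Fermat.Agent.LT.T2.H841.MatFacts

/-!
# Row LT, tower T2, leaf T2.07.18 (helper841): the averaged function and its invariances

OFF-MAIN.  For a cusp function `φ`, a complex place `w` and `g ∈ GL₂(𝔸_K)`,
`psi841 w hw φ g m = ∫_{qA} φ(g · ι(qmat q · m)) dq` is bi-invariant under `U(2)`, hence (Cartan)
invariant under the transposition of real matrices.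
-/

set_option autoImplicit false
set_option linter.unusedSectionVars false

open IsDedekindDomain NumberField MeasureTheory
open Fermat.Agent.LT.H556.A0
open Fermat.Agent.LT.T2 Fermat.Agent.LT.T2.H429

noncomputable section

namespace Fermat.Agent.LT.T2.H841

variable {K : Type} [Field K] [NumberField K]

section

variable (w : InfinitePlace K) (hw : w.IsComplex)

/-- The parametrisation of a sphere is continuous. -/
theorem continuous_sphere841 (hL : SubLocCont429 K) {d : ℝ} {Y : ℝ → ℝ → G K}
    (hY : IsSphereAt w d Y) : Continuous fun p : ℝ × ℝ => Y p.1 p.2 := by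
  refine hL w (ℝ × ℝ) (fun p => Y p.1 p.2) (fun p => (hY p.1 p.2).1) (fun i j => ?_)
  have h : (fun p : ℝ × ℝ => infComp w (Y p.1 p.2) i j) = fun p => sphM841 d p.1 p.2 i j := by
    funext p
    rw [(hY p.1 p.2).2]
    rfl
  rw [h]
  exact (continuous_sphM841 d).matrix_elem i j

theorem sphere_eq_iota841 {d : ℝ} {Y : ℝ → ℝ → G K} (hY : IsSphereAt w d Y) (α β : ℝ) :
    Y α β = iota841 w hw (sphM841 d α β) :=
  eq_iota841 w hw (det_sphM841_ne d α β) _ (hY α β).1 (hY α β).2

theorem det_qmat_mul_ne841 {q : ℂ × ℂ} (hq : q ∈ qA) {m : Matrix (Fin 2) (Fin 2) ℂ}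
    (hm : m.det ≠ 0) : (qmat q * m).det ≠ 0 := by
  rw [Matrix.det_mul]
  exact mul_ne_zero (det_qmat_ne_zero hq) hm

/-- `q ↦ ι(qmat q · m)` is continuous on the annulus. -/
theorem continuousOn_iota_qmat841 (hL : SubLocCont429 K) {m : Matrix (Fin 2) (Fin 2) ℂ}
    (hm : m.det ≠ 0) : ContinuousOn (fun q : ℂ × ℂ => iota841 w hw (qmat q * m)) qA := by
  rw [continuousOn_iff_continuous_domRestrict]
  refine hL w qA (qA.domRestrict fun q => iota841 w hw (qmat q * m))
    (fun q => isLocalAtInf_iota841 w hw _) (fun i j => ?_)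
  have h : (fun q : qA => infComp w (qA.domRestrict (fun q => iota841 w hw (qmat q * m)) q) i j)
      = fun q : qA => (qmat q.1 * m) i j := by
    funext q
    rw [Set.domRestrict_apply, infComp_iota841 w hw (det_qmat_mul_ne841 q.2 hm)]
  rw [h]
  exact ((continuous_qmat.comp continuous_subtype_val).matrix_mul
    continuous_const).matrix_elem i j

theorem continuousOn_iota_qmat_one841 (hL : SubLocCont429 K) :
    ContinuousOn (fun q : ℂ × ℂ => iota841 w hw (qmat q)) qA := by
  have h := continuousOn_iota_qmat841 w hw hL (m := 1) (by simp)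
  simpa only [mul_one] using h

/-- The averaged function. -/
def psi841 (φ : G K → ℂ) (g : G K) (m : Matrix (Fin 2) (Fin 2) ℂ) : ℂ :=
  ∫ q in qA, φ (g * iota841 w hw (qmat q * m))

/-- Right invariance under `U(2)`. -/
theorem psi841_mul_unitary {φ : G K → ℂ}
    (hφ : ∀ (k : G K), IsArchCompact w k → ∀ g : G K, φ (g * k) = φ g) (g : G K)
    {m : Matrix (Fin 2) (Fin 2) ℂ} (hm : m.det ≠ 0) {k : Matrix (Fin 2) (Fin 2) ℂ}
    (hk : k * k.conjTranspose = 1) : psi841 w hw φ g (m * k) = psi841 w hw φ g m := by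
  unfold psi841
  refine setIntegral_congr_fun measurableSet_qA (fun q hq => ?_)
  show φ (g * iota841 w hw (qmat q * (m * k))) = φ (g * iota841 w hw (qmat q * m))
  rw [← mul_assoc, iota841_mul w hw (det_qmat_mul_ne841 hq hm) (det_ne_zero_of_unitary841 hk),
    ← mul_assoc]
  exact hφ _ (isArchCompact_iota841 w hw hk) _

/-- Left invariance under `SU(2)`, in the form `suMat`. -/
theorem psi841_suMat_mul (φ : G K → ℂ) (g : G K) (a c : ℂ)
    (h : Complex.normSq a + Complex.normSq c = 1) (m : Matrix (Fin 2) (Fin 2) ℂ) :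
    psi841 w hw φ g (suMat a c * m) = psi841 w hw φ g m := by
  unfold psi841
  have h1 := setIntegral_qA_comp_qT a c h (fun q => φ (g * iota841 w hw (qmat q * m)))
  rw [← h1]
  refine setIntegral_congr_fun measurableSet_qA (fun q _ => ?_)
  show φ (g * iota841 w hw (qmat q * (suMat a c * m)))
    = φ (g * iota841 w hw (qmat (qT a c q) * m))
  rw [qmat_qT, mul_assoc]

/-- Left invariance under `SU(2)`. -/
theorem psi841_su_mul (φ : G K → ℂ) (g : G K) {k : Matrix (Fin 2) (Fin 2) ℂ}
    (hk : k * k.conjTranspose = 1) (hd : k.det = 1) (m : Matrix (Fin 2) (Fin 2) ℂ) :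
    psi841 w hw φ g (k * m) = psi841 w hw φ g m := by
  obtain ⟨hs, hn⟩ := su_shape841 hk hd
  rw [hs]
  exact psi841_suMat_mul w hw φ g _ _ hn m

/-- Invariance under the transposition of real matrices (Cartan decomposition). -/
theorem psi841_transpose (hC : SubCartanInf429) {φ : G K → ℂ}
    (hφ : ∀ (k : G K), IsArchCompact w k → ∀ g : G K, φ (g * k) = φ g) (g : G K)
    {X : Matrix (Fin 2) (Fin 2) ℂ} (hX : X.det ≠ 0) (hr : ∀ i j, (X i j).im = 0) :
    psi841 w hw φ g X.transpose = psi841 w hw φ g X := by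
  obtain ⟨k₁, k₂, a, b, hk₁, hk₂, hXe, hreal⟩ := hC X hX
  obtain ⟨-, -, hd₁, hd₂, -, -⟩ := hreal hr
  have hD : (Matrix.diagonal ![a, b]).det ≠ 0 := by
    intro h0
    apply hX
    rw [hXe, Matrix.det_mul, Matrix.det_mul, h0]
    simp
  have e1 : psi841 w hw φ g X = psi841 w hw φ g (Matrix.diagonal ![a, b]) := by
    rw [hXe, mul_assoc, psi841_su_mul w hw φ g hk₁ hd₁,
      psi841_mul_unitary w hw hφ g hD hk₂]
  have hT : X.transpose = k₂.transpose * (Matrix.diagonal ![a, b] * k₁.transpose) := by
    rw [hXe, Matrix.transpose_mul, Matrix.transpose_mul, Matrix.diagonal_transpose]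
  have e2 : psi841 w hw φ g X.transpose = psi841 w hw φ g (Matrix.diagonal ![a, b]) := by
    rw [hT, psi841_su_mul w hw φ g (conjTranspose_transpose_unitary841 hk₂)
        (by rw [Matrix.det_transpose]; exact hd₂),
      psi841_mul_unitary w hw hφ g hD (conjTranspose_transpose_unitary841 hk₁)]
  rw [e1, e2]

/-- **Symmetry** of the averaged function on the middle matrices. -/
theorem psi841_mid_symm (hC : SubCartanInf429) {φ : G K → ℂ}
    (hφ : ∀ (k : G K), IsArchCompact w k → ∀ g : G K, φ (g * k) = φ g) (g : G K)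
    (d β d' : ℝ) :
    psi841 w hw φ g (midM841 d β d') = psi841 w hw φ g (midM841 d' β d) := by
  have hdet : ∀ x y z : ℝ, (midM841 x y z).det ≠ 0 := fun x y z => by
    rw [det_midM841]; exact one_ne_zero
  rw [← psi841_transpose w hw hC hφ g (hdet d β d') (midM841_real d β d'),
    midM841_transpose, mul_assoc]
  unfold dmat841
  rw [psi841_suMat_mul w hw φ g _ _ normSq_dmat841,
    psi841_mul_unitary w hw hφ g (hdet d' β d) dmatInv841_unitary]

/-- The averaged function on a product of two sphere matrices. -/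
theorem psi841_sph_mul (φ : G K → ℂ) (g : G K) (d d' α β α' β' : ℝ) :
    psi841 w hw φ g (sphM841 d α β * sphM841 d' α' β')
      = psi841 w hw φ g (midM841 d β' d') := by
  have e : sphM841 d α β * sphM841 d' α' β'
      = rotZ α * (rotY β * (rotZ α' * midM841 d β' d')) := by
    unfold sphM841 midM841
    have h := rotZ_mul_torus841 α' d
    calc rotZ α * rotY β * torus d * (rotZ α' * rotY β' * torus d')
        = rotZ α * rotY β * ((torus d * rotZ α') * rotY β' * torus d') := by
          simp only [mul_assoc]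
      _ = rotZ α * rotY β * ((rotZ α' * torus d) * rotY β' * torus d') := by rw [h]
      _ = rotZ α * (rotY β * (rotZ α' * (torus d * rotY β' * torus d'))) := by
          simp only [mul_assoc]
  rw [e, rotZ_eq_suMat841 α, psi841_suMat_mul w hw φ g _ _ (normSq_rotZ841 α),
    rotY_eq_suMat841 β, psi841_suMat_mul w hw φ g _ _ (normSq_rotY841 β),
    rotZ_eq_suMat841 α', psi841_suMat_mul w hw φ g _ _ (normSq_rotZ841 α')]

end

end Fermat.Agent.LT.T2.H841

end
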