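import Mathlib
import Fermat.Agent.LT.T2.H429.OpsSpec
import Fermat.Agent.LT.T2.H841.QuatAvg
import Fermat.Agent.LT.T2.H841.Local
import Fermat.Agent.LT.T2.H841.Fubini
import Fermat.Agent.LT.T2.H841.MatFacts
import Fermat.Agent.LT.T2.H841.Avg

/-!
# Row LT, tower T2, leaf T2.07.18 `SubCommSphereSphere429` (helper841)

OFF-MAIN.  Two sphere means commute on the cusp functions.

* Different places: the elements commute; Fubini on the box.
* Same place `w`: POINTWISE proof (no Petersson pairing, no frame).  For a cusp function `Q` the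
  value `Q(g)` is the average of `Q(g · ι(qmat q))` over the annulus `qA` (right invariance under
  `U(2)` and `ℝ_{>0}`); Fubini moves the average to the innermost position, where it produces
  `psi841`, which is bi-invariant under `U(2)`; hence
  `vol(qA) · (M_Y M_Y' φ)(g) = ∫∫ (∫∫ psi841(torus d · rotY β' · torus d') sin β') sin β`, and the
  right-hand side is symmetric in `(d, d')` (`psi841_mid_symm`: Cartan decomposition).

Inputs (sub-leaves of helper429's `OpsSpec.lean`, taken as hypotheses):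
`SubSpherePres429 K` (T2.07.12), `SubLocCont429 K` (T2.07.30), `SubCartanInf429` (T2.07.32).
-/

set_option autoImplicit false
set_option linter.unusedSectionVars false

open IsDedekindDomain NumberField MeasureTheory
open Fermat.Agent.LT.H556.A0
open Fermat.Agent.LT.T2 Fermat.Agent.LT.T2.H429

noncomputable section

namespace Fermat.Agent.LT.T2.H841

variable {K : Type} [Field K] [NumberField K]

section

variable (w : InfinitePlace K) (hw : w.IsComplex)

/-- A cusp function is invariant under `ι(qmat q)`, `q` in the annulus. -/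
theorem avg_cusp841 {𝔫 : Ideal (𝓞 K)} {Q : G K → ℂ} (hQ : IsCuspFn 𝔫 Q) (g : G K)
    {q : ℂ × ℂ} (hq : q ∈ qA) : Q (g * iota841 w hw (qmat q)) = Q g := by
  obtain ⟨k, r, hr, hk, hqe⟩ := qmat_polar841 (qN_pos_of_mem hq)
  have hdiag : (Matrix.diagonal (fun _ : Fin 2 => (r : ℂ))).det ≠ 0 := by
    rw [Matrix.det_diagonal]
    simp [hr.ne']
  rw [hqe, iota841_mul w hw (det_ne_zero_of_unitary841 hk) hdiag, ← mul_assoc,
    hQ.arch_scalar w _ (isArchPosScalar_iota841 w hw hr),
    hQ.arch_compact w _ (isArchCompact_iota841 w hw hk)]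

/-- Fubini: the average over the annulus commutes with a sphere mean. -/
theorem fubini_sphere841 (hL : SubLocCont429 K) {Φ : G K → ℂ} (hc : Continuous Φ)
    (hb : ∃ C : ℝ, ∀ g : G K, ‖Φ g‖ ≤ C) {H₁ : ℂ × ℂ → G K} (hH : ContinuousOn H₁ qA)
    {d : ℝ} {Y : ℝ → ℝ → G K} (hY : IsSphereAt w d Y) :
    (∫ q in qA, sphereMean Y Φ (H₁ q))
      = ∫ α in (0 : ℝ)..(2 * Real.pi), ∫ β in (0 : ℝ)..Real.pi,
          (∫ q in qA, Φ (H₁ q * Y α β)) * ((Real.sin β : ℝ) : ℂ) := by
  obtain ⟨C, hC⟩ := hb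
  have hcont : ContinuousOn
      (fun p : (ℂ × ℂ) × ℝ × ℝ => Φ (H₁ p.1 * Y p.2.1 p.2.2) * ((Real.sin p.2.2 : ℝ) : ℂ))
      (qA ×ˢ Set.univ) := by
    have h1 : ContinuousOn (fun p : (ℂ × ℂ) × ℝ × ℝ => H₁ p.1) (qA ×ˢ Set.univ) :=
      hH.comp continuousOn_fst (fun p hp => hp.1)
    have h2 : Continuous (fun p : (ℂ × ℂ) × ℝ × ℝ => Y p.2.1 p.2.2) :=
      (continuous_sphere841 w hL hY).comp continuous_snd
    have h3 : Continuous (fun p : (ℂ × ℂ) × ℝ × ℝ => ((Real.sin p.2.2 : ℝ) : ℂ)) :=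
      Complex.continuous_ofReal.comp (Real.continuous_sin.comp
        (continuous_snd.comp continuous_snd))
    exact (hc.comp_continuousOn (h1.mul h2.continuousOn)).mul h3.continuousOn
  have hbd : ∃ C' : ℝ, ∀ (q : ℂ × ℂ) (α β : ℝ),
      ‖Φ (H₁ q * Y α β) * ((Real.sin β : ℝ) : ℂ)‖ ≤ C' := by
    refine ⟨C, fun q α β => ?_⟩
    rw [norm_mul, Complex.norm_real, Real.norm_eq_abs]
    have h1 := hC (H₁ q * Y α β)
    have h2 := Real.abs_sin_le_one β
    have h3 := norm_nonneg (Φ (H₁ q * Y α β))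
    calc ‖Φ (H₁ q * Y α β)‖ * |Real.sin β| ≤ ‖Φ (H₁ q * Y α β)‖ * 1 :=
          mul_le_mul_of_nonneg_left h2 h3
      _ ≤ C := by rw [mul_one]; exact h1
  have hint := integrable_box841 (volume : Measure (ℂ × ℂ)) measurableSet_qA volume_qA_lt_top
    (fun q α β => Φ (H₁ q * Y α β) * ((Real.sin β : ℝ) : ℂ)) (2 * Real.pi) Real.pi hcont hbd
  have hsw := swap841 ((volume : Measure (ℂ × ℂ)).restrict qA)
    (fun q α β => Φ (H₁ q * Y α β) * ((Real.sin β : ℝ) : ℂ))
    (by positivity : (0 : ℝ) ≤ 2 * Real.pi) Real.pi_pos.le hint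
  unfold sphereMean
  rw [hsw]
  refine intervalIntegral.integral_congr fun α _ => ?_
  refine intervalIntegral.integral_congr fun β _ => ?_
  exact integral_mul_const _ _

/-- **Key formula**: `vol(qA) · (M_Y M_Y' φ)(g)` in terms of the averaged function. -/
theorem key841 (hP : SubSpherePres429 K) (hL : SubLocCont429 K) {𝔫 : Ideal (𝓞 K)}
    (c : Ctx429 K 𝔫) {φ : G K → ℂ} (hφ : IsCuspFn 𝔫 φ) {d d' : ℝ} (hd : 0 < d) (hd' : 0 < d')
    {Y Y' : ℝ → ℝ → G K} (hY : IsSphereAt w d Y) (hY' : IsSphereAt w d' Y') (g : G K) :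
    ((((volume : Measure (ℂ × ℂ)) qA).toReal : ℝ) : ℂ) * sphereMean Y (sphereMean Y' φ) g
      = ∫ α in (0 : ℝ)..(2 * Real.pi), ∫ β in (0 : ℝ)..Real.pi,
          (∫ α' in (0 : ℝ)..(2 * Real.pi), ∫ β' in (0 : ℝ)..Real.pi,
            psi841 w hw φ g (midM841 d β' d') * ((Real.sin β' : ℝ) : ℂ))
          * ((Real.sin β : ℝ) : ℂ) := by
  have h1 : IsCuspFn 𝔫 (sphereMean Y' φ) := hP 𝔫 c w hw d' hd' Y' hY' φ hφ
  have h2 : IsCuspFn 𝔫 (sphereMean Y (sphereMean Y' φ)) := hP 𝔫 c w hw d hd Y hY _ h1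
  have s1 : (∫ q in qA, sphereMean Y (sphereMean Y' φ) (g * iota841 w hw (qmat q)))
      = ((((volume : Measure (ℂ × ℂ)) qA).toReal : ℝ) : ℂ)
        * sphereMean Y (sphereMean Y' φ) g := by
    rw [setIntegral_congr_fun measurableSet_qA (fun q hq => avg_cusp841 w hw h2 g hq),
      setIntegral_const]
    simp [Measure.real, Complex.real_smul]
  rw [← s1, fubini_sphere841 w hL h1.cont h1.bdd
    (H₁ := fun q => g * iota841 w hw (qmat q))
    (continuous_const.continuousOn.mul (continuousOn_iota_qmat_one841 w hw hL)) hY]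
  refine intervalIntegral.integral_congr fun α _ => ?_
  refine intervalIntegral.integral_congr fun β _ => ?_
  show (∫ q in qA, sphereMean Y' φ (g * iota841 w hw (qmat q) * Y α β))
      * ((Real.sin β : ℝ) : ℂ) = _
  congr 1
  have hH : ContinuousOn (fun q : ℂ × ℂ => g * iota841 w hw (qmat q) * Y α β) qA :=
    (continuous_const.continuousOn.mul (continuousOn_iota_qmat_one841 w hw hL)).mul
      continuous_const.continuousOn
  rw [fubini_sphere841 w hL hφ.cont hφ.bdd
    (H₁ := fun q => g * iota841 w hw (qmat q) * Y α β) hH hY']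
  refine intervalIntegral.integral_congr fun α' _ => ?_
  refine intervalIntegral.integral_congr fun β' _ => ?_
  show (∫ q in qA, φ (g * iota841 w hw (qmat q) * Y α β * Y' α' β'))
      * ((Real.sin β' : ℝ) : ℂ) = _
  congr 1
  rw [← psi841_sph_mul w hw φ g d d' α β α' β']
  unfold psi841
  refine setIntegral_congr_fun measurableSet_qA (fun q hq => ?_)
  show φ (g * iota841 w hw (qmat q) * Y α β * Y' α' β')
    = φ (g * iota841 w hw (qmat q * (sphM841 d α β * sphM841 d' α' β')))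
  have hS : (sphM841 d α β * sphM841 d' α' β').det ≠ 0 := by
    rw [Matrix.det_mul]
    exact mul_ne_zero (det_sphM841_ne _ _ _) (det_sphM841_ne _ _ _)
  rw [iota841_mul w hw (det_qmat_ne_zero hq) hS,
    iota841_mul w hw (det_sphM841_ne _ _ _) (det_sphM841_ne _ _ _),
    sphere_eq_iota841 w hw hY, sphere_eq_iota841 w hw hY']
  simp only [mul_assoc]

include hw in
/-- Two sphere means at the SAME complex place commute on the cusp functions. -/
theorem comm_same841 (hP : SubSpherePres429 K) (hL : SubLocCont429 K) (hC : SubCartanInf429)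
    {𝔫 : Ideal (𝓞 K)} (c : Ctx429 K 𝔫) {φ : G K → ℂ} (hφ : IsCuspFn 𝔫 φ) {d d' : ℝ}
    (hd : 0 < d) (hd' : 0 < d') {Y Y' : ℝ → ℝ → G K} (hY : IsSphereAt w d Y)
    (hY' : IsSphereAt w d' Y') (g : G K) :
    sphereMean Y (sphereMean Y' φ) g = sphereMean Y' (sphereMean Y φ) g := by
  have k1 := key841 w hw hP hL c hφ hd hd' hY hY' g
  have k2 := key841 w hw hP hL c hφ hd' hd hY' hY g
  have hsym : ∀ β' : ℝ, psi841 w hw φ g (midM841 d β' d')
      = psi841 w hw φ g (midM841 d' β' d) :=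
    fun β' => psi841_mid_symm w hw hC (hφ.arch_compact w) g d β' d'
  simp only [hsym] at k1
  have hv : ((((volume : Measure (ℂ × ℂ)) qA).toReal : ℝ) : ℂ) ≠ 0 := by
    have := ENNReal.toReal_pos volume_qA_pos.ne' volume_qA_lt_top.ne
    exact_mod_cast this.ne'
  exact mul_left_cancel₀ hv (k1.trans k2.symm)

end

/-- Two sphere means at DIFFERENT places commute on continuous bounded functions. -/
theorem comm_diff841 (hL : SubLocCont429 K) {w w' : InfinitePlace K} (hww : w ≠ w')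
    {φ : G K → ℂ} (hc : Continuous φ) (hb : ∃ C : ℝ, ∀ g : G K, ‖φ g‖ ≤ C) {d d' : ℝ}
    {Y Y' : ℝ → ℝ → G K} (hY : IsSphereAt w d Y) (hY' : IsSphereAt w' d' Y') (g : G K) :
    sphereMean Y (sphereMean Y' φ) g = sphereMean Y' (sphereMean Y φ) g := by
  obtain ⟨C, hC⟩ := hb
  have hcomm : ∀ α β α' β' : ℝ, Y' α' β' * Y α β = Y α β * Y' α' β' := fun α β α' β' =>
    (commute_of_local841 hww (hY α β).1 (hY' α' β').1).symm
  have hYc := continuous_sphere841 w hL hY
  have hYc' := continuous_sphere841 w' hL hY'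
  set F : ℝ → ℝ → ℝ → ℝ → ℂ := fun α β α' β' =>
    φ (g * Y α β * Y' α' β') * ((Real.sin β' : ℝ) : ℂ) * ((Real.sin β : ℝ) : ℂ) with hF
  have hFc : Continuous fun p : (ℝ × ℝ) × ℝ × ℝ => F p.1.1 p.1.2 p.2.1 p.2.2 := by
    have h1 : Continuous fun p : (ℝ × ℝ) × ℝ × ℝ => g * Y p.1.1 p.1.2 * Y' p.2.1 p.2.2 :=
      (continuous_const.mul (hYc.comp continuous_fst)).mul (hYc'.comp continuous_snd)
    have h2 : Continuous fun p : (ℝ × ℝ) × ℝ × ℝ => ((Real.sin p.2.2 : ℝ) : ℂ) :=
      Complex.continuous_ofReal.comp (Real.continuous_sin.comp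
        (continuous_snd.comp continuous_snd))
    have h3 : Continuous fun p : (ℝ × ℝ) × ℝ × ℝ => ((Real.sin p.1.2 : ℝ) : ℂ) :=
      Complex.continuous_ofReal.comp (Real.continuous_sin.comp
        (continuous_snd.comp continuous_fst))
    exact ((hc.comp h1).mul h2).mul h3
  have hFb : ∃ C' : ℝ, ∀ x y z t, ‖F x y z t‖ ≤ C' := by
    refine ⟨C, fun x y z t => ?_⟩
    rw [hF]
    simp only [norm_mul, Complex.norm_real, Real.norm_eq_abs]
    have h1 := hC (g * Y x y * Y' z t)
    have h2 := Real.abs_sin_le_one t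
    have h3 := Real.abs_sin_le_one y
    have h4 := norm_nonneg (φ (g * Y x y * Y' z t))
    have h5 := abs_nonneg (Real.sin t)
    have h6 := abs_nonneg (Real.sin y)
    calc ‖φ (g * Y x y * Y' z t)‖ * |Real.sin t| * |Real.sin y|
        ≤ ‖φ (g * Y x y * Y' z t)‖ * 1 * 1 := by
          apply mul_le_mul (mul_le_mul_of_nonneg_left h2 h4) h3 h6
          exact mul_nonneg h4 zero_le_one
      _ ≤ C := by rw [mul_one, mul_one]; exact h1
  have hsw := swap4_841 F hFc hFb (by positivity : (0 : ℝ) ≤ 2 * Real.pi) Real.pi_pos.le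
    (by positivity : (0 : ℝ) ≤ 2 * Real.pi) Real.pi_pos.le
  have eL : sphereMean Y (sphereMean Y' φ) g
      = ∫ α in (0 : ℝ)..(2 * Real.pi), ∫ β in (0 : ℝ)..Real.pi,
          ∫ α' in (0 : ℝ)..(2 * Real.pi), ∫ β' in (0 : ℝ)..Real.pi, F α β α' β' := by
    unfold sphereMean
    refine intervalIntegral.integral_congr fun α _ => ?_
    refine intervalIntegral.integral_congr fun β _ => ?_
    show (∫ α' in (0 : ℝ)..(2 * Real.pi), ∫ β' in (0 : ℝ)..Real.pi,
        φ (g * Y α β * Y' α' β') * ((Real.sin β' : ℝ) : ℂ)) * ((Real.sin β : ℝ) : ℂ) = _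
    rw [← intervalIntegral.integral_mul_const]
    refine intervalIntegral.integral_congr fun α' _ => ?_
    show (∫ β' in (0 : ℝ)..Real.pi,
        φ (g * Y α β * Y' α' β') * ((Real.sin β' : ℝ) : ℂ)) * ((Real.sin β : ℝ) : ℂ) = _
    rw [← intervalIntegral.integral_mul_const]
  have eR : sphereMean Y' (sphereMean Y φ) g
      = ∫ α' in (0 : ℝ)..(2 * Real.pi), ∫ β' in (0 : ℝ)..Real.pi,
          ∫ α in (0 : ℝ)..(2 * Real.pi), ∫ β in (0 : ℝ)..Real.pi, F α β α' β' := by
    unfold sphereMean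
    refine intervalIntegral.integral_congr fun α' _ => ?_
    refine intervalIntegral.integral_congr fun β' _ => ?_
    show (∫ α in (0 : ℝ)..(2 * Real.pi), ∫ β in (0 : ℝ)..Real.pi,
        φ (g * Y' α' β' * Y α β) * ((Real.sin β : ℝ) : ℂ)) * ((Real.sin β' : ℝ) : ℂ) = _
    rw [← intervalIntegral.integral_mul_const]
    refine intervalIntegral.integral_congr fun α _ => ?_
    show (∫ β in (0 : ℝ)..Real.pi,
        φ (g * Y' α' β' * Y α β) * ((Real.sin β : ℝ) : ℂ)) * ((Real.sin β' : ℝ) : ℂ) = _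
    rw [← intervalIntegral.integral_mul_const]
    refine intervalIntegral.integral_congr fun β _ => ?_
    show φ (g * Y' α' β' * Y α β) * ((Real.sin β : ℝ) : ℂ) * ((Real.sin β' : ℝ) : ℂ)
      = φ (g * Y α β * Y' α' β') * ((Real.sin β' : ℝ) : ℂ) * ((Real.sin β : ℝ) : ℂ)
    rw [mul_assoc g, hcomm α β α' β', ← mul_assoc g]
    ring
  rw [eL, eR, hsw]

/-- **LEAF T2.07.18** `SubCommSphereSphere429`, from the sub-leaves T2.07.12 (`SubSpherePres429`),
T2.07.30 (`SubLocCont429`) and T2.07.32 (`SubCartanInf429`). -/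
theorem subCommSphereSphere841 (hP : SubSpherePres429 K) (hL : SubLocCont429 K)
    (hC : SubCartanInf429) : SubCommSphereSphere429 K := by
  intro 𝔫 c w hw d hd Y hY w' hw' d' hd' Y' hY' φ hφ
  funext g
  by_cases hww : w = w'
  · subst hww
    exact comm_same841 w hw hP hL hC c hφ hd hd' hY hY' g
  · exact comm_diff841 hL hww hφ.cont hφ.bdd hY hY' g

end Fermat.Agent.LT.T2.H841

end
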